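import Fermat.Agent.LT.H.UniqL
import Fermat.Agent.LTG.K.DensL
import Fermat.Agent.LTG.Top.IfaceL

/-!
# Uniqueness of `π_L` (piece H of LT): `UniqL_G R`
(clone of LT/H/UniqL for `OctaG`; helper47)
-/

set_option autoImplicit false
set_option linter.unusedSectionVars false

open NumberField IsDedekindDomain Matrix MeasureTheory Module Set Filter Topology
open scoped ComplexConjugate ENNReal Real

namespace Fermat.Agent.LT.H

open Fermat.LT Fermat.Agent.LT.I Fermat.Agent.LT.B Fermat.Agent.LT.CArch Fermat.Agent.LT.D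
open Fermat.Agent.LT.CTree (sq unif rep)
open Fermat.Agent.LT.Top (EForm goodPl SType IsLev_G UniqL_G)
open Fermat.Agent.LTG.K (OctaG)

/-- **Uniqueness of `π_L`.** -/
theorem uniqL_G (R : OctaG) : UniqL_G R := by
  classical
  intro M C D hD φ₀ h₀ hs₀ lam φ h hs hA
  have hlev : ∀ w, D.n w = 0 ∨ (D.H w = HT w M ∧ D.n w = max M 1) := by
    intro w
    by_cases hw : (R.ab w).inertia K.Q8 = ⊥
    · exact Or.inl (hD.unr w hw)
    · exact Or.inr (hD.ram w hw)
  obtain ⟨a₀, hW₀, hd₀⟩ := wdata_of hlev h₀ hs₀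
  obtain ⟨a, hW, hd⟩ := wdata_of hlev h hs
  exact uniq_core (ulev_T hlev) h₀ h hW₀ hW hd₀ hd (fun ψ hψ hz => eq_zero_of_cell hψ hz)
    (fun w => R.abs_lam_le w) {v | pl C v.1 ≠ v.1}
    (fun v hv => (hA v.1 hv (by simpa using v.2)).symm)
    (fun s hs => K.summable_out _ hs) (K.summable_fix_out C _) (R.tendsto_lam_sq C _)

end Fermat.Agent.LT.H
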